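import Mathlib
import Fermat.Agent.Padic.GenPosAbs
import Fermat.Agent.Padic.GenPos

/-!
# (ORD0-G): general position for a finite SET of classes

`GenPosAbs.IsGenPos` / `GenPosAbs.exists_genPos` for a finite subset `T` of `Pic⁰(F)` instead of a
finite subgroup.  The clauses `add`, `add_red` of `IsGenPos` become the lemmas
`IsGenPosS.add`, `IsGenPosS.add_red` (for `u = v + w` in `T`).
-/

set_option autoImplicit false
set_option linter.style.haveILetI false

noncomputable section

namespace Fermat.Agent.S15P.Ord15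

open AlgebraicCurve Module KaehlerDifferential Fermat.Agent.Lib.FF Fermat.Agent.Lib.Red
  Fermat.Agent.Padic.GenPosAbs

section Main

variable {L F k Ft : Type*} [Field L] [Field F] [Algebra L F] [Field k] [Field Ft] [Algebra k Ft]
  {x : F} {xt : Ft}

/-- The general-position package for a SET `T` of classes: an effective divisor `B` of degree
`g` and effective divisors `Dv v` (`v ∈ T`) with `[Dv v - B] = v`. -/
structure IsGenPosS (r : Place L F → Place k Ft) (I : Set (SemilinearAut L F))
    (T : Set (Pic0 L F)) (B : Divisor L F) (Dv : T → Divisor L F) : Prop where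
  B_nonneg : 0 ≤ B
  degree_B : Divisor.degree B = genusFF L F
  smul_B : ∀ g ∈ I, g • B = B
  nonneg : ∀ v, 0 ≤ Dv v
  degree : ∀ v, Divisor.degree (Dv v) = genusFF L F
  cls : ∀ v : T, ClassEq (Dv v - B) (v : Pic0 L F)
  unique : ∀ (v : T) (D' : Divisor L F), 0 ≤ D' → ClassEq (D' - B) (v : Pic0 L F) → D' = Dv v
  smul : ∀ g ∈ I, ∀ (v : T) (hv : g • (v : Pic0 L F) ∈ T),
    Dv ⟨g • (v : Pic0 L F), hv⟩ = g • Dv v
  finrank_L : ∀ v, Module.finrank L (riemannRochSpace (Dv v)) = 1
  finrank_L_red : ∀ v, Module.finrank k (riemannRochSpace (Finsupp.mapDomain r (Dv v))) = 1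
  red_unique : ∀ (v : T) (X : Divisor k Ft), 0 ≤ X →
    X - Finsupp.mapDomain r (Dv v) ∈ Divisor.principal (K := k) (F := Ft) →
    X = Finsupp.mapDomain r (Dv v)
  red_smul : ∀ g ∈ I, ∀ (v : T) (hv : g • (v : Pic0 L F) ∈ T),
    Finsupp.mapDomain r (Dv ⟨g • (v : Pic0 L F), hv⟩) = Finsupp.mapDomain r (Dv v)

/-- **(GP2) + (GP3) for a finite set of classes, abstract form.** -/
theorem exists_genPosS [Infinite k] (hF : IsFF1 L F x) (hFt : IsFF1 k Ft xt)
    (r : Place L F → Place k Ft)
    (hprin : ∀ D : Divisor L F, D ∈ Divisor.principal (K := L) (F := F) →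
      Finsupp.mapDomain r D ∈ Divisor.principal (K := k) (F := Ft))
    (hsemi : ∀ D : Divisor L F, finrank L (riemannRochSpace D) ≤
      finrank k (riemannRochSpace (Finsupp.mapDomain r D)))
    (hgenus : genusFF k Ft = genusFF L F)
    (I : Set (SemilinearAut L F)) (hIr : ∀ g ∈ I, ∀ P : Place L F, r (g • P) = r P)
    (hfix : ∃ S : Finset (Place k Ft), ∀ Q, Q ∉ S →
      ∃ P : Place L F, r P = Q ∧ ∀ g ∈ I, g • P = P)
    (T : Set (Pic0 L F)) [Finite T] :
    ∃ (B : Divisor L F) (Dv : T → Divisor L F), IsGenPosS r I T B Dv := by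
  classical
  have := hF.hasPrincipalDivisors
  have := hFt.hasPrincipalDivisors
  obtain ⟨S, hS⟩ := hfix
  -- representatives of the classes
  choose X hX using fun v : T => Pic0.mk_surjective (v : Pic0 L F)
  have hXdeg : ∀ v, Divisor.degree (X v : Divisor L F) = 0 := fun v =>
    Divisor.mem_degZero.1 (X v).2
  haveI : Fintype T := Fintype.ofFinite T
  -- general position on the reduction
  obtain ⟨T', hTcard, hTS, hT⟩ := GenPos.exists_general_position hFt S (Finset.univ : Finset T)
    (fun v => Finsupp.mapDomain r (X v : Divisor L F))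
    (fun v _ => by rw [degree_mapDomain hF hFt, hXdeg])
  -- lifts of the places of `T'`
  have hlift : ∀ Q ∈ T', ∃ P : Place L F, r P = Q ∧ ∀ g ∈ I, g • P = P := fun Q hQ =>
    hS Q (Finset.disjoint_left.1 hTS hQ)
  haveI : Nonempty (Place L F) := hF.exists_place
  choose! lft hlft using hlift
  set B : Divisor L F := ∑ Q ∈ T', Finsupp.single (lft Q) (1 : ℤ) with hB
  have hrB : Finsupp.mapDomain r B = RR.sumPl T' := by
    rw [hB, Finsupp.mapDomain_finsetSum]
    unfold RR.sumPl
    refine Finset.sum_congr rfl fun Q hQ => ?_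
    rw [Finsupp.mapDomain_single, (hlft Q hQ).1]
  have hBnn : 0 ≤ B := Finset.sum_nonneg fun Q _ => Finsupp.single_nonneg.2 zero_le_one
  have hBdeg : Divisor.degree B = genusFF L F := by
    rw [hB, map_sum]
    simp only [Divisor.degree_single, hF.deg_eq_one]
    simp [hTcard, hgenus]
  have hBsmul : ∀ g ∈ I, g • B = B := by
    intro g hg
    rw [hB, Finset.smul_sum]
    refine Finset.sum_congr rfl fun Q hQ => ?_
    rw [SemilinearAut.smul_single, (hlft Q hQ).2 g hg]
  -- the functions `f v` and the divisors `D_v`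
  have hex : ∀ v : T, ∃ f : F, f ≠ 0 ∧
      ∀ P : Place L F, 0 ≤ P.ord f + ((X v : Divisor L F) + B) P := fun v =>
    hF.exists_ne_zero_of_degree_ge _ (by rw [map_add, hBdeg, hXdeg, zero_add])
  choose f hf0 hfnn using hex
  have hdiv : ∀ v : T, ∃ Df : Divisor L F, (∀ P, Df P = P.ord (f v)) ∧ Divisor.degree Df = 0 :=
    fun v => HasPrincipalDivisors.exists_divisor (K := L) (f v) (hf0 v)
  choose Df hDf hDfdeg using hdiv
  have hDfprin : ∀ v, Df v ∈ Divisor.principal (K := L) (F := F) := fun v =>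
    ⟨f v, hf0 v, hDf v⟩
  set Dv : T → Divisor L F := fun v => (X v : Divisor L F) + B + Df v with hDv
  have hnn : ∀ v, 0 ≤ Dv v := by
    intro v
    refine Finsupp.le_def.2 fun P => ?_
    have := hfnn v P
    simp only [hDv, Finsupp.coe_zero, Pi.zero_apply, Finsupp.add_apply, hDf v P] at this ⊢
    omega
  have hdegv : ∀ v, Divisor.degree (Dv v) = genusFF L F := by
    intro v
    simp only [hDv, map_add, hXdeg, hBdeg, hDfdeg]
    ring
  -- the class of `D_v - B`
  have hcls' : ∀ (v : T) (D' : Divisor L F), ClassEq (D' - B) (v : Pic0 L F) ↔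
      D' - B - (X v : Divisor L F) ∈ Divisor.principal (K := L) (F := F) := by
    intro v D'
    rw [← hX v]
    exact classEq_iff _ _
  have hcls : ∀ v : T, ClassEq (Dv v - B) (v : Pic0 L F) := by
    intro v
    rw [hcls']
    have : Dv v - B - (X v : Divisor L F) = Df v := by
      simp only [hDv]
      abel
    rw [this]
    exact hDfprin v
  -- dimensions on the reduction
  have hredprin : ∀ v : T, Finsupp.mapDomain r (Dv v) -
      (Finsupp.mapDomain r (X v : Divisor L F) + RR.sumPl T') ∈
        Divisor.principal (K := k) (F := Ft) := by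
    intro v
    have h1 := hprin _ (hDfprin v)
    have h2 : Finsupp.mapDomain r (Dv v) -
        (Finsupp.mapDomain r (X v : Divisor L F) + RR.sumPl T') = Finsupp.mapDomain r (Df v) := by
      simp only [hDv, Finsupp.mapDomain_add, hrB]
      abel
    rw [h2]
    exact h1
  have hfinred : ∀ v, finrank k (riemannRochSpace (Finsupp.mapDomain r (Dv v))) = 1 := by
    intro v
    rw [finrank_L_eq_of_principal (hredprin v)]
    exact (hT v (Finset.mem_univ v)).2
  have hfin : ∀ v, finrank L (riemannRochSpace (Dv v)) = 1 := by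
    intro v
    refine le_antisymm ((hsemi (Dv v)).trans (hfinred v).le) ?_
    haveI := hF.finite_L (Dv v)
    have hone : (⟨1, one_mem_L (hnn v)⟩ : riemannRochSpace (Dv v)) ≠ 0 := fun h0 =>
      one_ne_zero (congrArg Subtype.val h0)
    exact Nat.succ_le_of_lt (Module.finrank_pos_iff_exists_ne_zero.2 ⟨_, hone⟩)
  have huniq : ∀ (v : T) (D' : Divisor L F), 0 ≤ D' → ClassEq (D' - B) (v : Pic0 L F) →
      D' = Dv v := by
    intro v D' hD' hc
    refine eq_of_effective_of_finrank_one (hnn v) hD' (hfin v) ?_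
    have h1 := (hcls' v D').1 hc
    have h2 := (hcls' v (Dv v)).1 (hcls v)
    have h3 := (Divisor.principal (K := L) (F := F)).sub_mem h1 h2
    have h4 : D' - B - (X v : Divisor L F) - (Dv v - B - (X v : Divisor L F)) = D' - Dv v := by
      abel
    rwa [h4] at h3
  have hrednn : ∀ v, 0 ≤ Finsupp.mapDomain r (Dv v) := fun v => Finsupp.mapDomain_nonneg (hnn v)
  have hsmul : ∀ g ∈ I, ∀ (v : T) (hv : g • (v : Pic0 L F) ∈ T),
      Dv ⟨g • (v : Pic0 L F), hv⟩ = g • Dv v := by
    intro g hg v hv
    refine (huniq ⟨g • (v : Pic0 L F), hv⟩ (g • Dv v) (smul_nonneg' g (hnn v)) ?_).symm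
    have h1 := (hcls v).smul g
    rwa [smul_sub, hBsmul g hg] at h1
  refine ⟨B, Dv, ⟨hBnn, hBdeg, hBsmul, hnn, hdegv, hcls, huniq, hsmul, hfin, hfinred, ?_, ?_⟩⟩
  · intro v X' hX' hp
    exact eq_of_effective_of_finrank_one (hrednn v) hX' (hfinred v) hp
  · intro g hg v hv
    rw [hsmul g hg v hv]
    exact mapDomain_smul_of_invariant r g (hIr g hg) (Dv v)

end Main

end Fermat.Agent.S15P.Ord15
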