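import Mathlib
import Fermat.Agent.S15P.Ord.GenPosSet15
import Fermat.Agent.Padic.LocalOf
import Fermat.Agent.Padic.DL
import Fermat.Agent.Padic.FlatOps
import Fermat.Agent.Padic.GRMain
import Fermat.Agent.Padic.Level23Core
import Fermat.Agent.MW.DivA.Main

/-!
# (ORD0): the Kummer group of a division point has a Hopf order at every prime of good reduction

API of the set version of general position, its modular instance, and the Kummer action.
-/

set_option autoImplicit false
set_option linter.style.haveILetI false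

noncomputable section

namespace Fermat.Agent.S15P.Ord15

open AlgebraicCurve ModularCurve Module Fermat.Agent.Lib.FF Fermat.Agent.Padic
  Fermat.Agent.Padic.GenPosAbs Fermat.Agent.Padic.KMAdd Fermat.Agent.S15P.Ord15

/-! ### (G3) API of `IsGenPosS` used by the assembly -/

section Abs

variable {L F k Ft : Type*} [Field L] [Field F] [Algebra L F] [Field k] [Field Ft] [Algebra k Ft]
  {x : F} {xt : Ft}
  {r : Place L F → Place k Ft} {I : Set (SemilinearAut L F)} {T : Set (Pic0 L F)}
  {B : Divisor L F} {Dv : T → Divisor L F}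

theorem classEq_add {D D' : Divisor L F} {v w : Pic0 L F} (h : ClassEq D v) (h' : ClassEq D' w) :
    ClassEq (D + D') (v + w) := by
  obtain ⟨hd, hm⟩ := h
  obtain ⟨hd', hm'⟩ := h'
  refine ⟨add_mem hd hd', ?_⟩
  rw [← hm, ← hm', ← Pic0.mk_add]
  rfl

/-- no carry: `u = v + w` -/
theorem IsGenPosS.add (h : IsGenPosS r I T B Dv) {u v w : T}
    (huvw : (u : Pic0 L F) = v + w) :
    Dv u - Dv v - Dv w + B ∈ Divisor.principal (K := L) (F := F) := by
  have h1 := h.cls u
  rw [huvw] at h1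
  have h2 := h1.sub_mem_principal (classEq_add (h.cls v) (h.cls w))
  have h3 : Dv u - B - (Dv v - B + (Dv w - B)) = Dv u - Dv v - Dv w + B := by abel
  rwa [h3] at h2

/-- carry: `u + y = v + w`, the divisor `Dv y` plays the role of `B` -/
theorem IsGenPosS.add_carry (h : IsGenPosS r I T B Dv) {u v w y : T}
    (huvw : (u : Pic0 L F) + y = v + w) :
    Dv u - Dv v - Dv w + Dv y ∈ Divisor.principal (K := L) (F := F) := by
  have h1 := classEq_add (h.cls u) (h.cls y)
  rw [huvw] at h1
  have h2 := h1.sub_mem_principal (classEq_add (h.cls v) (h.cls w))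
  have h3 : Dv u - B + (Dv y - B) - (Dv v - B + (Dv w - B)) = Dv u - Dv v - Dv w + Dv y := by
    abel
  rwa [h3] at h2

theorem IsGenPosS.kmTriple (h : IsGenPosS r I T B Dv) {u v w : T}
    (huvw : (u : Pic0 L F) = v + w) : KMTriple L F B (Dv v) (Dv w) (Dv u) :=
  ⟨h.degree v, h.degree w, h.nonneg u, h.add huvw, h.finrank_L u⟩

theorem IsGenPosS.kmTriple_carry (h : IsGenPosS r I T B Dv) {u v w y : T}
    (huvw : (u : Pic0 L F) + y = v + w) : KMTriple L F (Dv y) (Dv v) (Dv w) (Dv u) :=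
  ⟨h.degree v, h.degree w, h.nonneg u, h.add_carry huvw, h.finrank_L u⟩

theorem IsGenPosS.kmTriple_red (h : IsGenPosS r I T B Dv) (hF : IsFF1 L F x) (hFt : IsFF1 k Ft xt)
    (hg : genusFF k Ft = genusFF L F)
    (hprin : ∀ D : Divisor L F, D ∈ Divisor.principal (K := L) (F := F) →
      Finsupp.mapDomain r D ∈ Divisor.principal (K := k) (F := Ft)) {u v w : T}
    (huvw : (u : Pic0 L F) = v + w) :
    KMTriple k Ft (Finsupp.mapDomain r B) (Finsupp.mapDomain r (Dv v))
      (Finsupp.mapDomain r (Dv w)) (Finsupp.mapDomain r (Dv u)) := by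
  refine ⟨by rw [degree_mapDomain hF hFt, h.degree, hg], by rw [degree_mapDomain hF hFt, h.degree, hg],
    Finsupp.mapDomain_nonneg (h.nonneg u), ?_, h.finrank_L_red u⟩
  have h1 := hprin _ (h.add huvw)
  rwa [Finsupp.mapDomain_add, mapDomain_sub', mapDomain_sub'] at h1

theorem IsGenPosS.kmTriple_carry_red (h : IsGenPosS r I T B Dv) (hF : IsFF1 L F x)
    (hFt : IsFF1 k Ft xt) (hg : genusFF k Ft = genusFF L F)
    (hprin : ∀ D : Divisor L F, D ∈ Divisor.principal (K := L) (F := F) →
      Finsupp.mapDomain r D ∈ Divisor.principal (K := k) (F := Ft)) {u v w y : T}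
    (huvw : (u : Pic0 L F) + y = v + w) :
    KMTriple k Ft (Finsupp.mapDomain r (Dv y)) (Finsupp.mapDomain r (Dv v))
      (Finsupp.mapDomain r (Dv w)) (Finsupp.mapDomain r (Dv u)) := by
  refine ⟨by rw [degree_mapDomain hF hFt, h.degree, hg], by rw [degree_mapDomain hF hFt, h.degree, hg],
    Finsupp.mapDomain_nonneg (h.nonneg u), ?_, h.finrank_L_red u⟩
  have h1 := hprin _ (h.add_carry huvw)
  rw [Finsupp.mapDomain_add, mapDomain_sub', mapDomain_sub'] at h1
  exact h1

/-- `v ↦ D_v` is injective. -/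
theorem IsGenPosS.injective (h : IsGenPosS r I T B Dv) : Function.Injective Dv := by
  intro v w hvw
  have h1 := h.cls v
  rw [hvw] at h1
  exact Subtype.ext (h1.unique (h.cls w))

/-- `r_* D_v` depends only on the reduction of `v`, and determines it. -/
theorem IsGenPosS.red_eq_iff (red : Pic0 L F → Pic0 k Ft)
    (hred : ∀ (D : Divisor L F) (v : Pic0 L F), ClassEq D v →
      ClassEq (Finsupp.mapDomain r D) (red v))
    (h : IsGenPosS r I T B Dv) (v w : T) :
    red (v : Pic0 L F) = red (w : Pic0 L F) ↔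
      Finsupp.mapDomain r (Dv v) = Finsupp.mapDomain r (Dv w) := by
  have key : ∀ v : T, ClassEq (Finsupp.mapDomain r (Dv v) - Finsupp.mapDomain r B)
      (red (v : Pic0 L F)) := fun v => by
    have h1 := hred _ _ (h.cls v)
    rwa [mapDomain_sub'] at h1
  constructor
  · intro hvw
    have h1 := key v
    rw [hvw] at h1
    refine h.red_unique w _ (Finsupp.mapDomain_nonneg (h.nonneg v)) ?_
    have h2 := h1.sub_mem_principal (key w)
    have h3 : Finsupp.mapDomain r (Dv v) - Finsupp.mapDomain r B -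
        (Finsupp.mapDomain r (Dv w) - Finsupp.mapDomain r B) =
        Finsupp.mapDomain r (Dv v) - Finsupp.mapDomain r (Dv w) := by abel
    rwa [h3] at h2
  · intro hvw
    have h1 := key v
    rw [hvw] at h1
    exact h1.unique (key w)

end Abs

end Fermat.Agent.S15P.Ord15

namespace Fermat.Agent.S15P.Ord15

open AlgebraicCurve ModularCurve Module Fermat.Agent.Lib.FF Fermat.Agent.Padic
  Fermat.Agent.Padic.GenPosAbs Fermat.Agent.Padic.KMAdd Fermat.Agent.S15P.Ord15

/-! ### (G2) the modular instance -/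

section Qbar

set_option synthInstance.maxHeartbeats 400000

variable {A : ValuationSubring (AlgebraicClosure ℚ)} {N : ℕ} [NeZero N]

/-- **(GP2) + (GP3) for a finite SET of classes, from `GoodRed A N`.** -/
theorem exists_genPosS_goodRed {l : ℕ} (hl : l.Prime) (hA : A.LiesOverPrime l)
    (h : GoodRed A N) (T : Set (JZero N)) [Finite T] :
    ∃ (B : Divisor (AlgebraicClosure ℚ) ↥(modularFunctionFieldBar N))
      (Dv : T → Divisor (AlgebraicClosure ℚ) ↥(modularFunctionFieldBar N)),
      IsGenPosS (placeReductionModL h.inputs) (GenPos.inertiaSet A N) T B Dv := by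
  haveI := Fermat.Agent.Lib.FF.CharP.isAlgClosed_residueField A
  have hπ : ∀ a : A, ¬ IsUnit a → IsLocalRing.residue A a = 0 := GenPos.residue_nonunit
  have hsurj : Function.Surjective (IsLocalRing.residue A) := IsLocalRing.residue_surjective
  have hr := isPlaceReductionModL_placeReductionModL h.inputs
  have hgen := h.inputs.choose_spec.2
  have hFL := Fermat.Agent.Lib.Red.InstGenus.isFF1_xL (A := A) (π := IsLocalRing.residue A) hπ hsurj h.level
  have hFk := Fermat.Agent.Lib.Red.InstGenus.isFF1_xk (A := A) (π := IsLocalRing.residue A) hπ hsurj h.level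
  refine exists_genPosS hFL hFk _ (fun D hD => hr.mapDomain_mem_principal hgen hD)
    (GenPos.finrank_rr_le_modular hπ hsurj h.level _ hr) h.genus (GenPos.inertiaSet A N) ?_
    (GenPos.exists_fixed_lifts_modular hl hA h.level _ hr hgen) T
  rintro g ⟨σ, hσ, rfl⟩ P
  exact GenPos.r_inertia hr hgen hσ P

end Qbar

/-! ### (K) the Kummer group -/

section Kummer

set_option synthInstance.maxHeartbeats 400000

variable {N : ℕ}

theorem kum_mem (m : ℕ) (x₁ : JZero N) (hx₁ : ∀ σ : GQ, σ • (m • x₁) = m • x₁) (σ : GQ)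
    (v : JZero N) (hv : v ∈ Submodule.torsionBy ℤ (JZero N) (m : ℤ)) (j : ℕ) :
    σ • v + j • (σ • x₁ - x₁) ∈ Submodule.torsionBy ℤ (JZero N) (m : ℤ) := by
  rw [Submodule.mem_torsionBy_iff, natCast_zsmul] at hv ⊢
  rw [nsmul_add, ← Level23.galois_smul_nsmul, hv, Level23.galois_smul_zero, zero_add,
    smul_comm m j, nsmul_sub, ← Level23.galois_smul_nsmul, hx₁, sub_self, nsmul_zero]

/-- **The Kummer action** on `J₀(N)[m] × ℤ/m` attached to a point `x₁` with `m • x₁` rational:
`σ (v, j) = (σ v + j (σ x₁ - x₁), j)`.  (The Galois module `{x | m x ∈ ℤ y} / ℤ y`, `y = m x₁`,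
in the coordinates `x = v + j x₁`.) -/
def kumAct (m : ℕ) (x₁ : JZero N) (hx₁ : ∀ σ : GQ, σ • (m • x₁) = m • x₁) :
    GQ → ↥(Submodule.torsionBy ℤ (JZero N) (m : ℤ)) × ZMod m →
      ↥(Submodule.torsionBy ℤ (JZero N) (m : ℤ)) × ZMod m :=
  fun σ p => (⟨σ • (p.1 : JZero N) + p.2.val • (σ • x₁ - x₁),
    kum_mem m x₁ hx₁ σ p.1 p.1.2 p.2.val⟩, p.2)


/-- the representative `v + j x₁` of `(v, j)` -/
def kumRep (m : ℕ) (x₁ : JZero N)
    (p : ↥(Submodule.torsionBy ℤ (JZero N) (m : ℤ)) × ZMod m) : JZero N :=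
  (p.1 : JZero N) + p.2.val • x₁

theorem kumRep_act (m : ℕ) (x₁ : JZero N) (hx₁ : ∀ σ : GQ, σ • (m • x₁) = m • x₁) (σ : GQ)
    (p : ↥(Submodule.torsionBy ℤ (JZero N) (m : ℤ)) × ZMod m) :
    kumRep m x₁ (kumAct m x₁ hx₁ σ p) = σ • kumRep m x₁ p := by
  unfold kumRep kumAct
  simp only
  rw [smul_add, Level23.galois_smul_nsmul, nsmul_sub]
  abel

theorem kumRep_add (m : ℕ) [NeZero m] (x₁ : JZero N)
    (p q : ↥(Submodule.torsionBy ℤ (JZero N) (m : ℤ)) × ZMod m) :
    kumRep m x₁ (p + q) + ((p.2.val + q.2.val) / m) • (m • x₁) =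
      kumRep m x₁ p + kumRep m x₁ q := by
  unfold kumRep
  have h1 : (p + q).2.val = (p.2.val + q.2.val) % m := ZMod.val_add p.2 q.2
  have h2 := Nat.div_add_mod (p.2.val + q.2.val) m
  have h3 : (p.2.val + q.2.val) • x₁ =
      ((p.2.val + q.2.val) / m) • (m • x₁) + ((p.2.val + q.2.val) % m) • x₁ := by
    rw [← mul_nsmul, ← add_nsmul, h2]
  rw [h1]
  have h4 : (((p + q).1 : ↥(Submodule.torsionBy ℤ (JZero N) (m : ℤ))) : JZero N) =
      (p.1 : JZero N) + (q.1 : JZero N) := rfl
  rw [h4]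
  have h5 : (p.1 : JZero N) + p.2.val • x₁ + ((q.1 : JZero N) + q.2.val • x₁) =
      (p.1 : JZero N) + (q.1 : JZero N) + (p.2.val + q.2.val) • x₁ := by
    rw [add_nsmul]
    abel
  rw [h5, h3]
  abel

theorem kum_carry (m : ℕ) [NeZero m] (a b : ZMod m) :
    (a.val + b.val < m ∧ (a.val + b.val) / m = 0) ∨ (m ≤ a.val + b.val ∧ (a.val + b.val) / m = 1) := by
  have ha := ZMod.val_lt a
  have hb := ZMod.val_lt b
  rcases lt_or_ge (a.val + b.val) m with h | h
  · exact Or.inl ⟨h, Nat.div_eq_of_lt h⟩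
  · refine Or.inr ⟨h, ?_⟩
    have h1 : a.val + b.val = (a.val + b.val - m) + m := by omega
    rw [h1, Nat.add_div_right _ (Nat.pos_of_ne_zero (NeZero.ne m)), Nat.div_eq_of_lt (by omega)]

end Kummer

end Fermat.Agent.S15P.Ord15
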