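import Mathlib
import Fermat.Agent.S15P.Ord.OrdApi15
import Fermat.Agent.Padic.LocalOf

/-!
# (ORD0-loc) = (K1): the local order on the Kummer group at a place of good reduction
-/

set_option autoImplicit false
set_option linter.style.haveILetI false

noncomputable section

namespace Fermat.Agent.S15P.Ord15

open AlgebraicCurve ModularCurve Module
open Fermat.Agent.Lib.FF Fermat.Agent.Lib.LinAlg.Family Fermat.Agent.Padic
  Fermat.Agent.Padic.KMAdd Fermat.Agent.Padic.LocalAsm Fermat.Agent.Padic.GenPosAbs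
  Fermat.Agent.S15P.Ord15

/-- **One Khuri-Makdisi addition step in coordinates** (the `hKM` part of
`LocalKM.hasLocalOrder_of_km`, for arbitrary divisors). -/
theorem fam_add_step (A : ValuationSubring Qb) [Infinite (IsLocalRing.ResidueField A)]
    {F : Type*} [Field F] [Algebra Qb F]
    {F' : Type*} [Field F'] [Algebra (IsLocalRing.ResidueField A) F']
    {x : F} (hF : IsFF1 Qb F x) {x' : F'} (hF' : IsFF1 (IsLocalRing.ResidueField A) F' x')
    (hg : genusFF (IsLocalRing.ResidueField A) F' = genusFF Qb F)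
    (E B : Divisor Qb F) (E' B' : Divisor (IsLocalRing.ResidueField A) F')
    (n : ℤ) (hn : 5 * (genusFF Qb F : ℤ) + 1 ≤ n)
    (hE : Divisor.degree E = n) (hE' : Divisor.degree E' = n)
    (hB : Divisor.degree B = genusFF Qb F)
    (hB' : Divisor.degree B' = genusFF (IsLocalRing.ResidueField A) F')
    {I₁ : Type} [Fintype I₁] [DecidableEq I₁]
    {I₂ J₁ J₂ J₄ : Type*} [Fintype I₂] [Fintype J₁] [Fintype J₂] [Fintype J₄]
    (a : I₂ → I₁ → I₁ → A) (b : J₂ → I₁ → J₁ → A) (c : J₄ → J₂ → I₂ → A)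
    (C : KMCoord Qb F E B (Fam.mapTab A.subtype a) (Fam.mapTab A.subtype b)
      (Fam.mapTab A.subtype c))
    (C' : KMCoord (IsLocalRing.ResidueField A) F' E' B' (Fam.mapTab (IsLocalRing.residue A) a)
      (Fam.mapTab (IsLocalRing.residue A) b) (Fam.mapTab (IsLocalRing.residue A) c))
    (𝓡 : Type) [CommRing 𝓡] [IsLocalRing 𝓡] (j : A →+* 𝓡) (Pt : Type)
    (χ : Pt → 𝓡 →+* Qb) (ρ : 𝓡 →+* IsLocalRing.ResidueField A) [IsLocalHom ρ]
    (hχ : ∀ f : 𝓡, (∀ q, χ q f = 0) → f = 0) (hχj : ∀ q a, χ q (j a) = a)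
    (hρj : ∀ a, ρ (j a) = IsLocalRing.residue A a)
    (W₁ W₂ : Fam 𝓡 I₁)
    (D₁ D₂ D₃ : Pt → Divisor Qb F) (D₁' D₂' D₃' : Divisor (IsLocalRing.ResidueField A) F')
    (hD₁ : ∀ q, 0 ≤ D₁ q) (hD₂ : ∀ q, 0 ≤ D₂ q) (hD₁' : 0 ≤ D₁') (hD₂' : 0 ≤ D₂')
    (h₁ : ∀ q, W₁.fib (χ q) = (riemannRochSpace (E - D₁ q)).comap C.φ₁)
    (h₂ : ∀ q, W₂.fib (χ q) = (riemannRochSpace (E - D₂ q)).comap C.φ₁)
    (h₁' : W₁.fib ρ = (riemannRochSpace (E' - D₁')).comap C'.φ₁)
    (h₂' : W₂.fib ρ = (riemannRochSpace (E' - D₂')).comap C'.φ₁)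
    (hD : ∀ q, KMTriple Qb F B (D₁ q) (D₂ q) (D₃ q))
    (hD' : KMTriple (IsLocalRing.ResidueField A) F' B' D₁' D₂' D₃') :
    ∃ W₃ : Fam 𝓡 I₁, (∀ q, W₃.fib (χ q) = (riemannRochSpace (E - D₃ q)).comap C.φ₁) ∧
      W₃.fib ρ = (riemannRochSpace (E' - D₃')).comap C'.φ₁ := by
  have hle : ∀ D : Divisor Qb F, 0 ≤ D → riemannRochSpace (E - D) ≤ LinearMap.range C.φ₁ := by
    intro D hD
    rw [C.range_φ₁]
    exact KMLemmas.L_mono (sub_le_self E hD)
  have hle' : ∀ D : Divisor (IsLocalRing.ResidueField A) F', 0 ≤ D →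
      riemannRochSpace (E' - D) ≤ LinearMap.range C'.φ₁ := by
    intro D hD
    rw [C'.range_φ₁]
    exact KMLemmas.L_mono (sub_le_self E' hD)
  have ea : ∀ q, Fam.mapTab (χ q) (Fam.mapTab j a) = Fam.mapTab A.subtype a := fun q => by
    funext k i i'
    exact hχj q _
  have eb : ∀ q, Fam.mapTab (χ q) (Fam.mapTab j b) = Fam.mapTab A.subtype b := fun q => by
    funext k i i'
    exact hχj q _
  have ec : ∀ q, Fam.mapTab (χ q) (Fam.mapTab j c) = Fam.mapTab A.subtype c := fun q => by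
    funext k i i'
    exact hχj q _
  have ea' : Fam.mapTab ρ (Fam.mapTab j a) = Fam.mapTab (IsLocalRing.residue A) a := by
    funext k i i'
    exact hρj _
  have eb' : Fam.mapTab ρ (Fam.mapTab j b) = Fam.mapTab (IsLocalRing.residue A) b := by
    funext k i i'
    exact hρj _
  have ec' : Fam.mapTab ρ (Fam.mapTab j c) = Fam.mapTab (IsLocalRing.residue A) c := by
    funext k i i'
    exact hρj _
  choose Cq hCq using fun q => LocalKM.exists_kmCoord_cast (ea q) (eb q) (ec q) C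
  obtain ⟨Cρ, hCρ⟩ := LocalKM.exists_kmCoord_cast ea' eb' ec' C'
  obtain ⟨W₃, h₃, h₃'⟩ := exists_fam_add χ hχ ρ inferInstance hF hF' hg E B E' B' n hn hE hE'
    hB hB' (Fam.mapTab j a) (Fam.mapTab j b) (Fam.mapTab j c) Cq Cρ W₁ W₂ D₁ D₂ D₃ D₁' D₂' D₃'
    (fun q => by rw [hCq, h₁ q, Submodule.map_comap_eq_of_le (hle _ (hD₁ q))])
    (fun q => by rw [hCq, h₂ q, Submodule.map_comap_eq_of_le (hle _ (hD₂ q))])
    (by rw [hCρ, h₁', Submodule.map_comap_eq_of_le (hle' _ hD₁')])
    (by rw [hCρ, h₂', Submodule.map_comap_eq_of_le (hle' _ hD₂')])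
    hD hD'
  refine ⟨W₃, fun q => ?_, ?_⟩
  · have h4 := h₃ q
    rw [hCq] at h4
    rw [← h4, Submodule.comap_map_eq_of_injective C.inj_φ₁]
  · rw [hCρ] at h₃'
    rw [← h₃', Submodule.comap_map_eq_of_injective C'.inj_φ₁]

section Main

set_option synthInstance.maxHeartbeats 400000

variable {N : ℕ}

set_option maxHeartbeats 4000000 in
/-- **(ORD0-loc)** the local order on the Kummer group at a place of good reduction. -/
theorem hasLocalOrder_kummer {A : ValuationSubring Qb} [NeZero N] {l : ℕ}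
    (hl : l.Prime) (hA : A.LiesOverPrime l) (hgr : GoodRed A N) (m : ℕ) [NeZero m]
    (x₁ : JZero N) (hx₁ : ∀ σ : GQ, σ • (m • x₁) = m • x₁) :
    HasLocalOrder A (↥(Submodule.torsionBy ℤ (JZero N) (m : ℤ)) × ZMod m) (kumAct m x₁ hx₁) := by
  classical
  haveI := Fermat.Agent.Lib.FF.CharP.isAlgClosed_residueField A
  have hr : IsPlaceReductionModL A N (placeReductionModL hgr.inputs) :=
    isPlaceReductionModL_placeReductionModL hgr.inputs
  have hFL := GenPos.isFF1_bar (N := N)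
  have hFk := GenPos.isFF1_res (A := A) (N := N) hgr.level
  have hprin : ∀ D : Divisor Qb ↥(modularFunctionFieldBar N),
      D ∈ Divisor.principal (K := Qb) (F := ↥(modularFunctionFieldBar N)) →
      Finsupp.mapDomain (placeReductionModL hgr.inputs) D ∈
        Divisor.principal (K := IsLocalRing.ResidueField A)
          (F := ↥(modularFunctionFieldFullC (IsLocalRing.ResidueField A) N)) :=
    fun D hD => hr.mapDomain_mem_principal hgr.inputs.choose_spec.2 hD
  -- finiteness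
  haveI hfinJ : Finite ↥(Submodule.torsionBy ℤ (JZero N) (m : ℤ)) := by
    have h1 := Fermat.Agent.ESJ.torsionFinite N m (Nat.pos_of_ne_zero (NeZero.ne m))
    exact h1.to_subtype
  -- the set of classes
  set T : Set (JZero N) := Set.range (kumRep m x₁) ∪ {m • x₁} with hT
  haveI : Finite T := ((Set.finite_range _).union (Set.finite_singleton _)).to_subtype
  obtain ⟨B, Dv, hGP⟩ := exists_genPosS_goodRed hl hA hgr T
  set tS : ↥(Submodule.torsionBy ℤ (JZero N) (m : ℤ)) × ZMod m → T :=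
    fun p => ⟨kumRep m x₁ p, Or.inl ⟨p, rfl⟩⟩ with htS
  set tY : T := ⟨m • x₁, Or.inr rfl⟩ with htY
  -- the two addition rules
  have hsum0 : ∀ p q : ↥(Submodule.torsionBy ℤ (JZero N) (m : ℤ)) × ZMod m,
      p.2.val + q.2.val < m →
      ((tS (p + q) : T) : JZero N) = (tS p : JZero N) + (tS q : JZero N) := by
    intro p q hlt
    have h1 := kumRep_add m x₁ p q
    rw [Nat.div_eq_of_lt hlt, zero_nsmul, add_zero] at h1
    exact h1
  have hsum1 : ∀ p q : ↥(Submodule.torsionBy ℤ (JZero N) (m : ℤ)) × ZMod m,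
      ¬ p.2.val + q.2.val < m →
      ((tS (p + q) : T) : JZero N) + (tY : JZero N) = (tS p : JZero N) + (tS q : JZero N) := by
    intro p q hlt
    have h1 := kumRep_add m x₁ p q
    rcases kum_carry m p.2 q.2 with ⟨h2, -⟩ | ⟨-, h2⟩
    · exact absurd h2 hlt
    · rw [h2, one_nsmul] at h1
      exact h1
  -- coordinate data
  obtain ⟨c₀, -, hKMD⟩ := KMAdd.GoodRed.exists_kmData hgr (placeReductionModL hgr.inputs) hr
  have hg0 : (0 : ℤ) ≤ (genusFF (AlgebraicClosure ℚ) ↥(modularFunctionFieldBar N) : ℤ) :=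
    Nat.cast_nonneg _
  obtain ⟨n, hn5, hnc⟩ : ∃ n : ℤ,
      5 * (genusFF (AlgebraicClosure ℚ) ↥(modularFunctionFieldBar N) : ℤ) + 1 ≤ n ∧
      c₀ + (genusFF (AlgebraicClosure ℚ) ↥(modularFunctionFieldBar N) : ℤ) ≤ n :=
    ⟨max (5 * (genusFF (AlgebraicClosure ℚ) ↥(modularFunctionFieldBar N) : ℤ) + 1)
      (c₀ + (genusFF (AlgebraicClosure ℚ) ↥(modularFunctionFieldBar N) : ℤ)),
      le_max_left _ _, le_max_right _ _⟩
  have hE : Divisor.degree (Finsupp.single (PlaceInf.placeInfL Qb N) n) = n := by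
    rw [Divisor.degree_single, hFL.deg_eq_one]
    simp
  have hEfix : ∀ σ ∈ A.inertiaSubgroupIn ℚ,
      arithmeticGalois (modularFunctionFieldFull N) σ •
        (Finsupp.single (PlaceInf.placeInfL Qb N) n :
          Divisor Qb ↥(modularFunctionFieldBar N)) =
        Finsupp.single (PlaceInf.placeInfL Qb N) n := by
    intro σ _
    rw [SemilinearAut.smul_single, PlaceInf.arithmeticGalois_smul_placeInfL]
  obtain ⟨d, b₁, hfix, hb₁⟩ := hgr.exists_fixed_latBasis n
  -- the two Khuri-Makdisi coordinate systems: for `B` and for `B_y = D_y`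
  obtain ⟨d₂, e₁, e₂, e₄, a, b, c, C, C', hφ, hφ'⟩ :=
    hKMD (Finsupp.single (PlaceInf.placeInfL Qb N) n) B
      (by rw [map_sub, hE, hGP.degree_B]; omega) (by rw [hGP.degree_B]; exact hg0)
      (by rw [hE]; omega) b₁ hb₁
  obtain ⟨dy₂, ey₁, ey₂, ey₄, ay, by', cy, Cy, Cy', hφy, hφy'⟩ :=
    hKMD (Finsupp.single (PlaceInf.placeInfL Qb N) n) (Dv tY)
      (by rw [map_sub, hE, hGP.degree tY]; omega) (by rw [hGP.degree tY]; exact hg0)
      (by rw [hE]; omega) b₁ hb₁
  have hφeq : Cy.φ₁ = C.φ₁ := LinearMap.ext fun w => by rw [hφ, hφy]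
  have hφeq' : Cy'.φ₁ = C'.φ₁ := LinearMap.ext fun w => by rw [hφ', hφy']
  have hdegred : ∀ t : T, Divisor.degree (Finsupp.mapDomain (placeReductionModL hgr.inputs)
      (Dv t)) = genusFF (IsLocalRing.ResidueField A)
        ↥(modularFunctionFieldFullC (IsLocalRing.ResidueField A) N) := by
    intro t
    rw [GenPosAbs.degree_mapDomain hFL hFk, hGP.degree, hgr.genus]
  have hBdegred : Divisor.degree (Finsupp.mapDomain (placeReductionModL hgr.inputs) B) =
      genusFF (IsLocalRing.ResidueField A)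
        ↥(modularFunctionFieldFullC (IsLocalRing.ResidueField A) N) := by
    rw [GenPosAbs.degree_mapDomain hFL hFk, hGP.degree_B, hgr.genus]
  have hE'deg : Divisor.degree (Finsupp.mapDomain (placeReductionModL hgr.inputs)
      (Finsupp.single (PlaceInf.placeInfL Qb N) n)) = n := by
    rw [GenPosAbs.degree_mapDomain hFL hFk, hE]
  -- the reduction of classes
  have hredeq : ∀ t t' : T, reductionModL A N (t : JZero N) = reductionModL A N (t' : JZero N) ↔
      Finsupp.mapDomain (placeReductionModL hgr.inputs) (Dv t) =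
        Finsupp.mapDomain (placeReductionModL hgr.inputs) (Dv t') :=
    fun t t' => hGP.red_eq_iff (reductionModL A N) (GenPos.classEq_reductionModL hgr.inputs) t t'
  -- the assembly
  refine hasLocalOrder_of_families A (kumAct m x₁ hx₁)
    (fun p => (p.2, Finsupp.mapDomain (placeReductionModL hgr.inputs) (Dv (tS p)))) ?_ ?_
    (fun p => (riemannRochSpace (Finsupp.single (PlaceInf.placeInfL Qb N) n - Dv (tS p))).comap
      C.φ₁)
    (fun X => (riemannRochSpace (Finsupp.mapDomain (placeReductionModL hgr.inputs)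
      (Finsupp.single (PlaceInf.placeInfL Qb N) n) - X.2)).comap C'.φ₁) ?_ ?_ ?_ ?_
  · -- hadd
    intro v v' w w' h1 h2
    have hv2 : v.2 = v'.2 := congrArg Prod.fst h1
    have hw2 : w.2 = w'.2 := congrArg Prod.fst h2
    have hv1 := (hredeq (tS v) (tS v')).2 (congrArg Prod.snd h1)
    have hw1 := (hredeq (tS w) (tS w')).2 (congrArg Prod.snd h2)
    refine Prod.ext ?_ ?_
    · show (v + w).2 = (v' + w').2
      rw [Prod.snd_add, Prod.snd_add, hv2, hw2]
    · refine (hredeq (tS (v + w)) (tS (v' + w'))).1 ?_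
      have e1 := congrArg (reductionModL A N) (kumRep_add m x₁ v w)
      have e2 := congrArg (reductionModL A N) (kumRep_add m x₁ v' w')
      rw [map_add, map_add] at e1 e2
      rw [hv2, hw2] at e1
      have hv1' : reductionModL A N (kumRep m x₁ v) = reductionModL A N (kumRep m x₁ v') := hv1
      have hw1' : reductionModL A N (kumRep m x₁ w) = reductionModL A N (kumRep m x₁ w') := hw1
      rw [hv1', hw1', ← e2] at e1
      exact add_right_cancel e1
  · -- hr
    intro σ hσ p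
    refine Prod.ext rfl ?_
    have hv : arithmeticGalois (modularFunctionFieldFull N) σ • ((tS p : T) : JZero N) ∈ T :=
      Or.inl ⟨kumAct m x₁ hx₁ σ p, kumRep_act m x₁ hx₁ σ p⟩
    have h1 := hGP.red_smul _ (GenPos.mem_inertiaSet hσ) (tS p) hv
    have h2 : tS (kumAct m x₁ hx₁ σ p) =
        ⟨arithmeticGalois (modularFunctionFieldFull N) σ • ((tS p : T) : JZero N), hv⟩ :=
      Subtype.ext (kumRep_act m x₁ hx₁ σ p)
    show Finsupp.mapDomain (placeReductionModL hgr.inputs) (Dv (tS (kumAct m x₁ hx₁ σ p))) = _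
    rw [h2]
    exact h1
  · -- hpt
    intro p
    exact FamOfLattice.exists_fam_rr hgr (placeReductionModL hgr.inputs) hr hb₁
      C.φ₁ hφ C'.φ₁ hφ' (Dv (tS p)) (hGP.nonneg _)
      (by rw [map_sub, hE, hGP.degree]; omega)
  · -- heqv
    intro σ hσ p w hw
    have hv : arithmeticGalois (modularFunctionFieldFull N) σ • ((tS p : T) : JZero N) ∈ T :=
      Or.inl ⟨kumAct m x₁ hx₁ σ p, kumRep_act m x₁ hx₁ σ p⟩
    have h2 : tS (kumAct m x₁ hx₁ σ p) =
        ⟨arithmeticGalois (modularFunctionFieldFull N) σ • ((tS p : T) : JZero N), hv⟩ :=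
      Subtype.ext (kumRep_act m x₁ hx₁ σ p)
    show (fun i => σ (w i)) ∈ (riemannRochSpace (Finsupp.single (PlaceInf.placeInfL Qb N) n -
      Dv (tS (kumAct m x₁ hx₁ σ p)))).comap C.φ₁
    rw [h2, hGP.smul _ (GenPos.mem_inertiaSet hσ) (tS p) hv, Submodule.mem_comap, hφ]
    rw [Submodule.mem_comap] at hw
    have h3 := GenPosGlue.smul_mem_rr (arithmeticGalois (modularFunctionFieldFull N) σ) hw
    rw [hφ, GenPosGlue.smul_sum_smul, smul_sub, hEfix σ hσ] at h3
    simp only [hfix σ] at h3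
    exact h3
  · -- hsep
    intro v w hvw hL
    have hv2 : v.2 = w.2 := congrArg Prod.fst hvw
    have hle : ∀ D : Divisor Qb ↥(modularFunctionFieldBar N), 0 ≤ D →
        riemannRochSpace (Finsupp.single (PlaceInf.placeInfL Qb N) n - D) ≤
          LinearMap.range C.φ₁ := by
      intro D hD
      rw [C.range_φ₁]
      exact KMLemmas.L_mono (sub_le_self _ hD)
    have h1 := congrArg (Submodule.map C.φ₁) hL
    rw [Submodule.map_comap_eq_of_le (hle _ (hGP.nonneg _)),
      Submodule.map_comap_eq_of_le (hle _ (hGP.nonneg _))] at h1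
    have h2 : Dv (tS v) = Dv (tS w) := by
      refine GenPosAbs.eq_of_L_sub_eq hFL ?_ ?_ h1
      · rw [map_sub, hE, hGP.degree]
        omega
      · rw [map_sub, hE, hGP.degree]
        omega
    have h3 : kumRep m x₁ v = kumRep m x₁ w := congrArg Subtype.val (hGP.injective h2)
    unfold kumRep at h3
    rw [hv2] at h3
    exact Prod.ext (Subtype.ext (add_right_cancel h3)) hv2
  · -- hKM
    intro 𝓡 _ _ j Pt χ ρ _ hχ hχj hρj vv ww v₀ w₀ hvv hww W₁ W₂ h₁ h₂ h₁' h₂'
    have hvv2 : ∀ q, (vv q).2 = v₀.2 := fun q => congrArg Prod.fst (hvv q)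
    have hww2 : ∀ q, (ww q).2 = w₀.2 := fun q => congrArg Prod.fst (hww q)
    by_cases hcar : v₀.2.val + w₀.2.val < m
    · -- no carry: the coordinates for `B`
      exact fam_add_step A hFL hFk hgr.genus _ B _ _ n hn5 hE hE'deg hGP.degree_B hBdegred
        a b c C C' 𝓡 j Pt χ ρ hχ hχj hρj W₁ W₂
        (fun q => Dv (tS (vv q))) (fun q => Dv (tS (ww q))) (fun q => Dv (tS (vv q + ww q)))
        _ _ (Finsupp.mapDomain (placeReductionModL hgr.inputs) (Dv (tS (v₀ + w₀))))
        (fun q => hGP.nonneg _) (fun q => hGP.nonneg _)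
        (Finsupp.mapDomain_nonneg (hGP.nonneg _)) (Finsupp.mapDomain_nonneg (hGP.nonneg _))
        h₁ h₂ h₁' h₂'
        (fun q => hGP.kmTriple (hsum0 (vv q) (ww q) (by rw [hvv2, hww2]; exact hcar)))
        (hGP.kmTriple_red hFL hFk hgr.genus hprin (hsum0 v₀ w₀ hcar))
    · -- carry: the coordinates for `B_y`
      have key := fam_add_step A hFL hFk hgr.genus _ (Dv tY) _ _ n hn5 hE hE'deg
        (hGP.degree tY) (hdegred tY)
        ay by' cy Cy Cy' 𝓡 j Pt χ ρ hχ hχj hρj W₁ W₂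
        (fun q => Dv (tS (vv q))) (fun q => Dv (tS (ww q))) (fun q => Dv (tS (vv q + ww q)))
        (Finsupp.mapDomain (placeReductionModL hgr.inputs) (Dv (tS v₀)))
        (Finsupp.mapDomain (placeReductionModL hgr.inputs) (Dv (tS w₀)))
        (Finsupp.mapDomain (placeReductionModL hgr.inputs) (Dv (tS (v₀ + w₀))))
        (fun q => hGP.nonneg _) (fun q => hGP.nonneg _)
        (Finsupp.mapDomain_nonneg (hGP.nonneg _)) (Finsupp.mapDomain_nonneg (hGP.nonneg _))
        (by rw [hφeq]; exact h₁) (by rw [hφeq]; exact h₂) (by rw [hφeq']; exact h₁')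
        (by rw [hφeq']; exact h₂')
        (fun q => hGP.kmTriple_carry (hsum1 (vv q) (ww q) (by rw [hvv2, hww2]; exact hcar)))
        (hGP.kmTriple_carry_red hFL hFk hgr.genus hprin (hsum1 v₀ w₀ hcar))
      rw [hφeq, hφeq'] at key
      exact key

end Main

end Fermat.Agent.S15P.Ord15
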