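import Mathlib
import Fermat.Agent.S15P.Ord.KumLoc15
import Fermat.Agent.Padic.DL
import Fermat.Agent.Padic.FlatOps
import Fermat.Agent.ESJ.Jac.FiniteLevel

/-!
# (K2): the Hopf order on the Kummer group, good reduction data given
-/

set_option autoImplicit false
set_option linter.style.haveILetI false

noncomputable section

namespace Fermat.Agent.S15P.Ord15

open AlgebraicCurve ModularCurve Module Fermat.Agent.Padic

section

set_option synthInstance.maxHeartbeats 400000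

variable {N : ℕ}

theorem torsion_finite [NeZero N] (m : ℕ) [NeZero m] :
    Finite ↥(Submodule.torsionBy ℤ (JZero N) (m : ℤ)) := by
  have h1 := Fermat.Agent.ESJ.torsionFinite N m (Nat.pos_of_ne_zero (NeZero.ne m))
  exact h1.to_subtype

theorem nsmul_mod_of_nsmul_eq_zero {M : Type*} [AddCommMonoid M] (m : ℕ) (c : M)
    (hc : m • c = 0) (n : ℕ) : (n % m) • c = n • c := by
  conv_rhs => rw [← Nat.div_add_mod n m]
  rw [add_nsmul, mul_nsmul, hc, nsmul_zero, zero_add]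

theorem kum_cocycle_torsion (m : ℕ) (x₁ : JZero N) (hx₁ : ∀ σ : GQ, σ • (m • x₁) = m • x₁)
    (σ : GQ) : m • (σ • x₁ - x₁) = 0 := by
  rw [nsmul_sub, ← Level23.galois_smul_nsmul, hx₁, sub_self]

theorem kumAct_one (m : ℕ) (x₁ : JZero N) (hx₁ : ∀ σ : GQ, σ • (m • x₁) = m • x₁)
    (p : ↥(Submodule.torsionBy ℤ (JZero N) (m : ℤ)) × ZMod m) : kumAct m x₁ hx₁ 1 p = p := by
  refine Prod.ext (Subtype.ext ?_) rfl
  show (1 : GQ) • (p.1 : JZero N) + p.2.val • ((1 : GQ) • x₁ - x₁) = p.1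
  rw [one_smul, one_smul, sub_self, nsmul_zero, add_zero]

theorem kumAct_mul (m : ℕ) (x₁ : JZero N) (hx₁ : ∀ σ : GQ, σ • (m • x₁) = m • x₁) (σ τ : GQ)
    (p : ↥(Submodule.torsionBy ℤ (JZero N) (m : ℤ)) × ZMod m) :
    kumAct m x₁ hx₁ (σ * τ) p = kumAct m x₁ hx₁ σ (kumAct m x₁ hx₁ τ p) := by
  refine Prod.ext (Subtype.ext ?_) rfl
  show (σ * τ) • (p.1 : JZero N) + p.2.val • ((σ * τ) • x₁ - x₁) =
    σ • (τ • (p.1 : JZero N) + p.2.val • (τ • x₁ - x₁)) + p.2.val • (σ • x₁ - x₁)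
  rw [mul_smul, mul_smul, smul_add, Level23.galois_smul_nsmul, smul_sub, nsmul_sub, nsmul_sub,
    nsmul_sub]
  abel

theorem kumAct_add (m : ℕ) [NeZero m] (x₁ : JZero N) (hx₁ : ∀ σ : GQ, σ • (m • x₁) = m • x₁)
    (σ : GQ) (p q : ↥(Submodule.torsionBy ℤ (JZero N) (m : ℤ)) × ZMod m) :
    kumAct m x₁ hx₁ σ (p + q) = kumAct m x₁ hx₁ σ p + kumAct m x₁ hx₁ σ q := by
  refine Prod.ext (Subtype.ext ?_) rfl
  show σ • ((p.1 : JZero N) + (q.1 : JZero N)) + (p.2 + q.2).val • (σ • x₁ - x₁) =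
    (σ • (p.1 : JZero N) + p.2.val • (σ • x₁ - x₁)) +
      (σ • (q.1 : JZero N) + q.2.val • (σ • x₁ - x₁))
  rw [ZMod.val_add, nsmul_mod_of_nsmul_eq_zero m _ (kum_cocycle_torsion m x₁ hx₁ σ), add_nsmul,
    smul_add]
  abel

theorem kumAct_level [NeZero N] (m : ℕ) [NeZero m] (x₁ : JZero N)
    (hx₁ : ∀ σ : GQ, σ • (m • x₁) = m • x₁) :
    ∃ L : IntermediateField ℚ Qb, FiniteDimensional ℚ L ∧
      ∀ σ : GQ, (∀ x ∈ L, σ x = x) → ∀ p, kumAct m x₁ hx₁ σ p = p := by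
  have hfin : ((Submodule.torsionBy ℤ (JZero N) (m : ℤ) : Set (JZero N)) ∪ {x₁}).Finite :=
    (Fermat.Agent.ESJ.torsionFinite N m (Nat.pos_of_ne_zero (NeZero.ne m))).union
      (Set.finite_singleton x₁)
  obtain ⟨L, hL, hfix⟩ := Fermat.Agent.ESJ.Jac.FiniteLevel.exists_finiteLevel_of_finite N _ hfin
  refine ⟨L, hL, fun σ hσ p => Prod.ext (Subtype.ext ?_) rfl⟩
  show σ • (p.1 : JZero N) + p.2.val • (σ • x₁ - x₁) = p.1
  rw [hfix σ hσ (p.1 : JZero N) (Or.inl p.1.2), hfix σ hσ x₁ (Or.inr rfl), sub_self, nsmul_zero,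
    add_zero]

/-- **(ORD0-gr)** the Hopf order on the Kummer group, good reduction data given. -/
theorem hasHopfOrder_kummer_of_goodRed {A : ValuationSubring Qb} [NeZero N] (l : ℕ)
    [Fact l.Prime] (hA : A.LiesOverPrime l) (hgr : GoodRed A N) (m : ℕ) [NeZero m]
    (x₁ : JZero N) (hx₁ : ∀ σ : GQ, σ • (m • x₁) = m • x₁) :
    Fermat.Agent.Lib.FinFlat.HasHopfOrder l (kumAct m x₁ hx₁) := by
  haveI := torsion_finite (N := N) m
  exact (flatClause_of_hasLocalOrder l A hA (kumAct m x₁ hx₁) (kumAct_one m x₁ hx₁)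
    (kumAct_mul m x₁ hx₁) (kumAct_add m x₁ hx₁) (kumAct_level m x₁ hx₁)
    (hasLocalOrder_kummer (Fact.out : l.Prime) hA hgr m x₁ hx₁)).hasHopfOrder

end

end Fermat.Agent.S15P.Ord15
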