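import Mathlib
import Fermat.Agent.S15P.Ord.KumHopf15
import Fermat.Agent.Padic.GRMain
import Fermat.Agent.Padic.Level23Core
import Fermat.Agent.MW.DivA.Main
import Fermat.Agent.Lib.FinFlat.Quotient
import Fermat.Agent.ESJ.Cong.LevelPull

/-!
# (K3a): transfer of the Hopf order on the Kummer group along a level pull-back
-/

set_option autoImplicit false
set_option linter.style.haveILetI false

noncomputable section

namespace Fermat.Agent.S15P.Ord15

open AlgebraicCurve ModularCurve Module Fermat.Agent.Padic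

section

set_option synthInstance.maxHeartbeats 400000

set_option maxHeartbeats 4000000 in
/-- Transfer of the Hopf order on the Kummer group along a Galois-equivariant additive map
`π : J₀(N) → J₀(N')` whose kernel is killed by `l ^ a`. -/
theorem hasHopfOrder_kummer_of_pullback {N N' : ℕ} [NeZero N] [NeZero N'] (l : ℕ)
    [Fact l.Prime] (a : ℕ) (π : JZero N →+ JZero N')
    (hπG : ∀ (σ : GQ) (x : JZero N), π (σ • x) = σ • π x)
    (hπker : ∀ x : JZero N, π x = 0 → l ^ a • x = 0)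
    (k : ℕ) (xp : JZero N)
    (hxp : ∀ σ : GQ, σ • (l ^ (k + a) • xp) = l ^ (k + a) • xp)
    (hx' : ∀ σ : GQ, σ • (l ^ (k + a) • π xp) = l ^ (k + a) • π xp)
    (hx₁ : ∀ σ : GQ, σ • (l ^ k • (l ^ a • xp)) = l ^ k • (l ^ a • xp))
    (h : Fermat.Agent.Lib.FinFlat.HasHopfOrder l (kumAct (l ^ (k + a)) (π xp) hx')) :
    Fermat.Agent.Lib.FinFlat.HasHopfOrder l (kumAct (l ^ k) (l ^ a • xp) hx₁) := by
  classical
  have hl : l.Prime := Fact.out
  haveI : NeZero (l ^ (k + a)) := ⟨pow_ne_zero _ hl.ne_zero⟩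
  haveI : NeZero (l ^ k) := ⟨pow_ne_zero _ hl.ne_zero⟩
  haveI := torsion_finite (N := N') (l ^ (k + a))
  have hdvd : l ^ k ∣ l ^ (k + a) := pow_dvd_pow l (Nat.le_add_right k a)
  have hwd : ∀ u u' : JZero N, π u = π u' → l ^ a • u = l ^ a • u' := by
    intro u u' h
    have h0 : π (u - u') = 0 := by rw [map_sub, h, sub_self]
    have h1 := hπker _ h0
    rw [nsmul_sub, sub_eq_zero] at h1
    exact h1
  have hmemT : ∀ {n : ℕ} {N₀ : ℕ} (u : JZero N₀),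
      u ∈ Submodule.torsionBy ℤ (JZero N₀) (n : ℤ) ↔ n • u = 0 := by
    intro n N₀ u
    rw [Submodule.mem_torsionBy_iff, natCast_zsmul]
  -- the subgroup `W`
  obtain ⟨W, hW⟩ : ∃ W : AddSubgroup (↥(Submodule.torsionBy ℤ (JZero N') ((l ^ (k + a) : ℕ) : ℤ)) ×
      ZMod (l ^ (k + a))), ∀ p, p ∈ W ↔
        ∃ u : JZero N, l ^ (k + a) • u = 0 ∧ π u = (p.1 : JZero N') :=
    ⟨{ carrier := {p | ∃ u : JZero N, l ^ (k + a) • u = 0 ∧ π u = (p.1 : JZero N')}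
       zero_mem' := ⟨0, by rw [nsmul_zero], by rw [map_zero]; rfl⟩
       add_mem' := by
         rintro p p' ⟨u, hu, hπu⟩ ⟨u', hu', hπu'⟩
         exact ⟨u + u', by rw [nsmul_add, hu, hu', add_zero], by rw [map_add, hπu, hπu']; rfl⟩
       neg_mem' := by
         rintro p ⟨u, hu, hπu⟩
         exact ⟨-u, by rw [neg_nsmul, hu, neg_zero], by rw [map_neg, hπu]; rfl⟩ },
      fun p => Iff.rfl⟩
  have hWstab : ∀ (σ : GQ) (p : ↥(Submodule.torsionBy ℤ (JZero N') ((l ^ (k + a) : ℕ) : ℤ)) ×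
      ZMod (l ^ (k + a))), p ∈ W → kumAct (l ^ (k + a)) (π xp) hx' σ p ∈ W := by
    intro σ p hp
    obtain ⟨u, hu, hπu⟩ := (hW p).1 hp
    refine (hW _).2 ⟨σ • u + p.2.val • (σ • xp - xp), ?_, ?_⟩
    · exact (hmemT _).1 (kum_mem (l ^ (k + a)) xp hxp σ u ((hmemT u).2 hu) p.2.val)
    · show _ = σ • (p.1 : JZero N') + p.2.val • (σ • π xp - π xp)
      rw [map_add, map_nsmul, map_sub, hπG, hπG, hπu]
  obtain ⟨actW, hactW⟩ : ∃ actW : GQ → W → W, ∀ σ w,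
      ((actW σ w : W) : ↥(Submodule.torsionBy ℤ (JZero N') ((l ^ (k + a) : ℕ) : ℤ)) ×
        ZMod (l ^ (k + a))) = kumAct (l ^ (k + a)) (π xp) hx' σ w.1 :=
    ⟨fun σ w => ⟨_, hWstab σ w.1 w.2⟩, fun σ w => rfl⟩
  -- choice of preimages
  have hex : ∀ w : W, ∃ u : JZero N, l ^ (k + a) • u = 0 ∧ π u = (w.1.1 : JZero N') :=
    fun w => (hW w.1).1 w.2
  choose u hu hπu using hex
  have hmem : ∀ w : W, l ^ a • u w ∈ Submodule.torsionBy ℤ (JZero N) ((l ^ k : ℕ) : ℤ) := by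
    intro w
    rw [hmemT, ← mul_nsmul', ← pow_add]
    exact hu w
  have hφadd : ∀ v w : W, l ^ a • u (v + w) = l ^ a • u v + l ^ a • u w := by
    intro v w
    rw [← nsmul_add]
    apply hwd
    rw [map_add, hπu, hπu, hπu]
    rfl
  obtain ⟨ψ, hψ1, hψ2⟩ : ∃ ψ : W →+ ↥(Submodule.torsionBy ℤ (JZero N) ((l ^ k : ℕ) : ℤ)) ×
      ZMod (l ^ k), (∀ w, ((ψ w).1 : JZero N) = l ^ a • u w) ∧
      ∀ w, (ψ w).2 = ZMod.castHom hdvd (ZMod (l ^ k)) w.1.2 :=
    ⟨AddMonoidHom.mk' (fun w => (⟨l ^ a • u w, hmem w⟩,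
      ZMod.castHom hdvd (ZMod (l ^ k)) w.1.2))
      (fun v w => Prod.ext (Subtype.ext (hφadd v w)) (map_add _ _ _)), fun w => rfl, fun w => rfl⟩
  refine Fermat.Agent.Lib.FinFlat.HasHopfOrder.of_subquotient (actW := actW) h W.subtype
    W.subtype_injective (fun σ w => hactW σ w) ψ ?_ ?_
  · -- surjectivity
    rintro ⟨⟨v, hv⟩, i⟩
    obtain ⟨y, hy1, hy2⟩ := Level23.exists_div_torsion N l k a v ((hmemT v).1 hv)
    have hπy : π y ∈ Submodule.torsionBy ℤ (JZero N') ((l ^ (k + a) : ℕ) : ℤ) := by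
      rw [hmemT, ← map_nsmul, hy1, map_zero]
    have hwW : ((⟨π y, hπy⟩, ((i.val : ℕ) : ZMod (l ^ (k + a)))) :
        ↥(Submodule.torsionBy ℤ (JZero N') ((l ^ (k + a) : ℕ) : ℤ)) × ZMod (l ^ (k + a))) ∈ W :=
      (hW _).2 ⟨y, hy1, rfl⟩
    refine ⟨⟨_, hwW⟩, Prod.ext (Subtype.ext ?_) ?_⟩
    · show ((ψ ⟨_, hwW⟩).1 : JZero N) = v
      rw [hψ1, ← hy2]
      apply hwd
      rw [hπu]
    · show (ψ ⟨_, hwW⟩).2 = i
      rw [hψ2]
      show ZMod.castHom hdvd (ZMod (l ^ k)) ((i.val : ℕ) : ZMod (l ^ (k + a))) = i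
      rw [map_natCast, ZMod.natCast_zmod_val]
  · -- equivariance
    intro σ w
    have h1 : l ^ a • u (actW σ w) = l ^ a • (σ • u w + w.1.2.val • (σ • xp - xp)) := by
      apply hwd
      rw [hπu, hactW σ w]
      show σ • (w.1.1 : JZero N') + w.1.2.val • (σ • π xp - π xp) = _
      rw [map_add, map_nsmul, map_sub, hπG, hπG, hπu]
    have hc : l ^ k • (σ • (l ^ a • xp) - l ^ a • xp) = 0 := kum_cocycle_torsion _ _ hx₁ σ
    have h2 : (ZMod.castHom hdvd (ZMod (l ^ k)) w.1.2).val = w.1.2.val % l ^ k := by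
      rw [ZMod.castHom_apply, ZMod.cast_eq_val, ZMod.val_natCast]
    have h3 : (actW σ w).1.2 = w.1.2 := by rw [hactW σ w]; rfl
    refine Prod.ext (Subtype.ext ?_) ?_
    · show ((ψ (actW σ w)).1 : JZero N) =
        σ • ((ψ w).1 : JZero N) + (ψ w).2.val • (σ • (l ^ a • xp) - l ^ a • xp)
      rw [hψ1, hψ1, hψ2, h1, h2, nsmul_mod_of_nsmul_eq_zero _ _ hc, nsmul_add,
        Level23.galois_smul_nsmul, smul_comm (l ^ a) _ (σ • xp - xp), nsmul_sub (σ • xp),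
        Level23.galois_smul_nsmul]
    · show (ψ (actW σ w)).2 = (ψ w).2
      rw [hψ2, hψ2, h3]

end

end Fermat.Agent.S15P.Ord15
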