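import Mathlib
import Fermat.Agent.S15P.Ord.KumPull15
import Fermat.Agent.Padic.GRMain
import Fermat.Agent.Padic.Level23Core
import Fermat.Agent.MW.DivA.Main
import Fermat.Agent.Lib.FinFlat.Quotient
import Fermat.Agent.ESJ.Cong.LevelPull

/-!
# (K3) = (ORD0): the Hopf order on the Kummer group for every prime `l ∤ N`
-/

set_option autoImplicit false
set_option linter.style.haveILetI false

noncomputable section

namespace Fermat.Agent.S15P.Ord15

open AlgebraicCurve ModularCurve Module Fermat.Agent.Padic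

section

set_option synthInstance.maxHeartbeats 400000

/-- **(ORD0)** the Hopf order on the Kummer group `J₀(N)[l^k] × ℤ/l^k` of a point `x₁` with
`l^k • x₁` rational, for EVERY prime `l ∤ N` (`l ∈ {2, 3}` through the levels `3N`, `2N`). -/
theorem hasHopfOrder_kummer (N l : ℕ) [NeZero N] [Fact l.Prime] (hlN : ¬ l ∣ N) (k : ℕ)
    (x₁ : JZero N) (hx₁ : ∀ σ : GQ, σ • (l ^ k • x₁) = l ^ k • x₁) :
    Fermat.Agent.Lib.FinFlat.HasHopfOrder l (kumAct (l ^ k) x₁ hx₁) := by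
  have hl : l.Prime := Fact.out
  haveI : NeZero (l ^ k) := ⟨pow_ne_zero _ hl.ne_zero⟩
  -- the case where good reduction data exist
  have good : ∀ (M : ℕ) [NeZero M], ¬ l ∣ M → (5 ≤ l ∨ (l = 3 ∧ 2 ∣ M) ∨ (l = 2 ∧ 3 ∣ M)) →
      ∀ (m : ℕ) [NeZero m] (x : JZero M) (hx : ∀ σ : GQ, σ • (m • x) = m • x),
        Fermat.Agent.Lib.FinFlat.HasHopfOrder l (kumAct m x hx) := by
    intro M _ hM hcase m _ x hx
    obtain ⟨A, hA, hG⟩ := gr_main M l inferInstance hl hM hcase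
    exact hasHopfOrder_kummer_of_goodRed l hA hG m x hx
  -- the transfer from level `N q`
  have trans : ∀ (q a : ℕ), q.Prime → ¬ q ∣ N → q + 1 = l ^ a →
      ((l = 3 ∧ 2 ∣ N * q) ∨ (l = 2 ∧ 3 ∣ N * q)) → ¬ l ∣ N * q →
      Fermat.Agent.Lib.FinFlat.HasHopfOrder l (kumAct (l ^ k) x₁ hx₁) := by
    intro q a hq hqN hql hcase hlNq
    haveI : NeZero (N * q) := ⟨Nat.mul_ne_zero (NeZero.ne N) hq.ne_zero⟩
    obtain ⟨π, hπG, -, hπker⟩ := Fermat.Agent.ESJ.Cong.levelPullback_mul_prime N q hq hqN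
    obtain ⟨xp, hxp⟩ := Fermat.Agent.MW.DivA.jZero_divisible N (pow_pos hl.pos a) x₁
    subst hxp
    have hxp' : ∀ σ : GQ, σ • (l ^ (k + a) • xp) = l ^ (k + a) • xp := by
      intro σ
      rw [pow_add, mul_nsmul']
      exact hx₁ σ
    have hx' : ∀ σ : GQ, σ • (l ^ (k + a) • π xp) = l ^ (k + a) • π xp := by
      intro σ
      rw [← map_nsmul, ← hπG, hxp' σ]
    haveI : NeZero (l ^ (k + a)) := ⟨pow_ne_zero _ hl.ne_zero⟩
    exact hasHopfOrder_kummer_of_pullback l a π hπG (fun x hx => by rw [← hql]; exact hπker x hx)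
      k xp hxp' hx' hx₁ (good (N * q) hlNq (Or.inr hcase) (l ^ (k + a)) (π xp) hx')
  by_cases h5 : 5 ≤ l
  · exact good N hlN (Or.inl h5) (l ^ k) x₁ hx₁
  have hlt : l < 5 := Nat.lt_of_not_ge h5
  have h23 : l = 2 ∨ l = 3 := by
    have h2 := hl.two_le
    interval_cases l
    · exact Or.inl rfl
    · exact Or.inr rfl
    · exact absurd hl (by norm_num)
  rcases h23 with rfl | rfl
  · by_cases h3 : 3 ∣ N
    · exact good N hlN (Or.inr (Or.inr ⟨rfl, h3⟩)) (2 ^ k) x₁ hx₁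
    · refine trans 3 2 Nat.prime_three h3 (by norm_num) (Or.inr ⟨rfl, dvd_mul_left 3 N⟩) ?_
      intro hdvd
      rcases (Nat.Prime.dvd_mul hl).mp hdvd with h | h
      · exact hlN h
      · exact absurd h (by norm_num)
  · by_cases h2 : 2 ∣ N
    · exact good N hlN (Or.inr (Or.inl ⟨rfl, h2⟩)) (3 ^ k) x₁ hx₁
    · refine trans 2 1 Nat.prime_two h2 (by norm_num) (Or.inl ⟨rfl, dvd_mul_left 2 N⟩) ?_
      intro hdvd
      rcases (Nat.Prime.dvd_mul hl).mp hdvd with h | h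
      · exact hlN h
      · exact absurd h (by norm_num)

end

end Fermat.Agent.S15P.Ord15
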